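import Mathlib

set_option autoImplicit false
set_option maxHeartbeats 400000

namespace Fermat.Agent.S23

open MvPolynomial

/-- Any ring automorphism of the polynomial ring on a transcendence basis extends to `ℂ`. -/
theorem exists_ringEquiv_extending {R : Type} [CommRing R] [Algebra R ℂ] {ι : Type}
    (v : ι → ℂ) (hv : IsTranscendenceBasis R v)
    (e : MvPolynomial ι R ≃+* MvPolynomial ι R) :
    ∃ σ : ℂ ≃+* ℂ, ∀ P : MvPolynomial ι R, σ (aeval v P) = aeval v (e P) := by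
  let _ := IsAlgClosed.isAlgClosure_of_transcendence_basis v hv
  let e' : Algebra.adjoin R (Set.range v) ≃+* Algebra.adjoin R (Set.range v) :=
    hv.1.aevalEquiv.symm.toRingEquiv.trans (e.trans hv.1.aevalEquiv.toRingEquiv)
  refine ⟨IsAlgClosure.equivOfEquiv ℂ ℂ e', fun P => ?_⟩
  have h1 : aeval v P = algebraMap (Algebra.adjoin R (Set.range v)) ℂ (hv.1.aevalEquiv P) :=
    (hv.1.algebraMap_aevalEquiv P).symm
  rw [h1, IsAlgClosure.equivOfEquiv_algebraMap]
  have h2 : e' (hv.1.aevalEquiv P) = hv.1.aevalEquiv (e P) := by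
    simp [e']
  rw [h2, hv.1.algebraMap_aevalEquiv]

theorem exists_ringEquiv_ne_of_transcendental {x : ℂ} (hx : Transcendental ℚ x) :
    ∃ σ : ℂ ≃+* ℂ, σ x ≠ x := by
  have hs : AlgebraicIndepOn ℚ id ({x} : Set ℂ) :=
    algebraicIndependent_unique_type_iff.mpr hx
  obtain ⟨t, hst, ht⟩ := exists_isTranscendenceBasis_superset hs
  let e : MvPolynomial t ℚ ≃ₐ[ℚ] MvPolynomial t ℚ :=
    AlgEquiv.ofAlgHom (aeval (fun i => - X i)) (aeval (fun i => - X i))
      (by ext; simp) (by ext; simp)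
  obtain ⟨σ, hσ⟩ := exists_ringEquiv_extending _ ht e.toRingEquiv
  refine ⟨σ, ?_⟩
  have h := hσ (X ⟨x, hst rfl⟩)
  have he : e.toRingEquiv (X ⟨x, hst rfl⟩) = - X ⟨x, hst rfl⟩ := by
    simp [e]
  rw [he] at h
  simp only [aeval_X, map_neg] at h
  rw [h]
  intro h0
  have hx0 : x = 0 := by
    have : (2 : ℂ) * x = 0 := by linear_combination -h0
    simpa using this
  exact hx (hx0 ▸ isAlgebraic_zero)

theorem exists_ringEquiv_ne_of_isAlgebraic {x : ℂ} (hx : IsAlgebraic ℚ x)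
    (hx' : x ∉ Set.range ((↑) : ℚ → ℂ)) :
    ∃ σ : ℂ ≃+* ℂ, σ x ≠ x := by
  let x' : algebraicClosure ℚ ℂ := ⟨x, mem_algebraicClosure_iff.mpr hx⟩
  have hnot : x' ∉ Set.range (algebraMap ℚ (algebraicClosure ℚ ℂ)) := by
    rintro ⟨q, hq⟩
    exact hx' ⟨q, by simpa [x'] using congrArg Subtype.val hq⟩
  have hcl : IsAlgClosure ℚ (algebraicClosure ℚ ℂ) := algebraicClosure.isAlgClosure ℚ ℂ
  have : IsGalois ℚ (algebraicClosure ℚ ℂ) := IsAlgClosure.isGalois ℚ _
  rw [InfiniteGalois.mem_range_algebraMap_iff_fixed] at hnot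
  push Not at hnot
  obtain ⟨τ, hτ⟩ := hnot
  obtain ⟨ι, v, hv⟩ := exists_isTranscendenceBasis' (algebraicClosure ℚ ℂ) ℂ
  obtain ⟨σ, hσ⟩ := exists_ringEquiv_extending v hv (MvPolynomial.mapEquiv ι τ.toRingEquiv)
  refine ⟨σ, ?_⟩
  have h := hσ (C x')
  simp only [MvPolynomial.mapEquiv_apply, map_C, aeval_C] at h
  intro h0
  apply hτ
  apply Subtype.ext
  have h1 : algebraMap (algebraicClosure ℚ ℂ) ℂ x' = x := rfl
  rw [h1, h0] at h
  exact h.symm

theorem exists_ringEquiv_ne {x : ℂ} (hx : x ∉ Set.range ((↑) : ℚ → ℂ)) :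
    ∃ σ : ℂ ≃+* ℂ, σ x ≠ x := by
  by_cases h : IsAlgebraic ℚ x
  · exact exists_ringEquiv_ne_of_isAlgebraic h hx
  · exact exists_ringEquiv_ne_of_transcendental h

end Fermat.Agent.S23
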