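import Mathlib
import Fermat.Prelude.Def_CuspForm_IntegralStructure
import Fermat.Agent.Lib.QCoeff
import Fermat.Agent.S22.Assembly
import Fermat.Agent.S23.FixedField

set_option autoImplicit false
set_option maxHeartbeats 400000

namespace Fermat.Agent.S23

open Fermat.Agent.Lib.QCoeff

/-- Galois descent for a finite dimensional space with a separating family of coordinates. -/
theorem exists_basis_rat {V : Type} [AddCommGroup V] [Module ℂ V] [FiniteDimensional ℂ V]
    (a : ℕ → Module.Dual ℂ V) (hsep : ∀ v, (∀ n, a n v = 0) → v = 0)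
    (hconj : ∀ (σ : ℂ ≃+* ℂ) (f : V), ∃ g : V, ∀ n, a n g = σ (a n f)) :
    ∃ (ι : Type) (_ : Fintype ι) (b : Module.Basis ι ℂ V), ∀ i n, ∃ q : ℚ, a n (b i) = q := by
  classical
  have hspan : Submodule.span ℂ (Set.range a) = ⊤ := by
    apply Submodule.span_eq_top_of_ne_zero
    intro z hz
    by_contra hcon
    push Not at hcon
    exact hz (hsep z fun n => hcon (a n) ⟨n, rfl⟩)
  let B := Module.Basis.ofSpan hspan.ge
  have hB : ∀ i, ∃ n, a n = B i := fun i => Module.Basis.ofSpan_subset hspan.ge ⟨i, rfl⟩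
  choose m hm using hB
  have : Fintype _ := FiniteDimensional.fintypeBasisIndex B
  let b := B.dualBasis.map (Module.evalEquiv ℂ V).symm
  have hb : ∀ i j, B i (b j) = if j = i then 1 else 0 := by
    intro i j
    simp only [b, Module.Basis.map_apply, Module.apply_evalEquiv_symm_apply]
    rw [Module.Basis.dualBasis_apply_self]
    simp only [eq_comm]
  refine ⟨_, this, b, fun j n => ?_⟩
  by_contra hq
  have hq' : a n (b j) ∉ Set.range ((↑) : ℚ → ℂ) := by
    rintro ⟨q, hq2⟩
    exact hq ⟨q, hq2.symm⟩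
  obtain ⟨σ, hσ⟩ := exists_ringEquiv_ne hq'
  obtain ⟨g, hg⟩ := hconj σ (b j)
  have hgb : g = b j := by
    apply Module.eval_apply_injective ℂ
    apply B.ext
    intro i
    simp only [Module.Dual.eval_apply]
    rw [← hm i, hg, hm i, hb]
    split_ifs <;> simp
  apply hσ
  rw [← hg, hgb]

theorem exists_denominator (M : Submodule ℤ ℂ) (hM : M.FG) :
    ∃ D : ℤ, D ≠ 0 ∧ ∀ q : ℚ, (q : ℂ) ∈ M → ∃ m : ℤ, (D : ℂ) * q = m := by
  classical
  let j : ℚ →ₗ[ℤ] ℂ := (Rat.castHom ℂ).toAddMonoidHom.toIntLinearMap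
  have hj : Function.Injective j := (Rat.castHom ℂ).injective
  have hN : IsNoetherian ℤ M := isNoetherian_of_fg_of_noetherian M hM
  have hfin : Module.Finite ℤ (M.comap j) := by
    refine Module.Finite.of_injective (j.restrict (p := M.comap j) (q := M) fun x hx => hx) ?_
    intro x y hxy
    apply Subtype.ext
    apply hj
    exact congrArg Subtype.val hxy
  obtain ⟨S, hS⟩ := Module.Finite.iff_fg.mp hfin
  refine ⟨∏ s ∈ S, (s.den : ℤ), ?_, ?_⟩
  · exact Finset.prod_ne_zero_iff.mpr fun s _ => by exact_mod_cast s.den_ne_zero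
  · intro q hq
    have hq' : q ∈ Submodule.span ℤ (S : Set ℚ) := by rw [hS]; exact hq
    clear hq
    have key : ∃ m : ℤ, ((∏ s ∈ S, (s.den : ℤ) : ℤ) : ℚ) * q = m := by
      induction hq' using Submodule.span_induction with
      | mem x hx =>
        refine ⟨(∏ s ∈ S.erase x, (s.den : ℤ)) * x.num, ?_⟩
        rw [← Finset.mul_prod_erase S _ hx]
        push_cast
        have := Rat.den_mul_eq_num x
        linear_combination (∏ s ∈ S.erase x, (s.den : ℚ)) * this
      | zero => exact ⟨0, by simp⟩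
      | add x y _ _ hx hy =>
        obtain ⟨a, ha⟩ := hx
        obtain ⟨b, hb⟩ := hy
        exact ⟨a + b, by rw [mul_add, ha, hb]; push_cast; ring⟩
      | smul c x _ hx =>
        obtain ⟨a, ha⟩ := hx
        exact ⟨c * a, by rw [zsmul_eq_mul, mul_left_comm, ha]; push_cast; ring⟩
    obtain ⟨m, hm⟩ := key
    exact ⟨m, by exact_mod_cast congrArg (fun r : ℚ => (r : ℂ)) hm⟩

theorem finiteDimensional_cuspForm (N : ℕ) [NeZero N] (k : ℤ) :
    FiniteDimensional ℂ (CuspForm (CongruenceSubgroup.Gamma0 N) k) := by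
  obtain ⟨𝒮, hfin, -, hspan⟩ := Fermat.Agent.S22.span_data N k
  have : FiniteDimensional ℂ (Submodule.span ℂ 𝒮) := FiniteDimensional.span_of_finite ℂ hfin
  let Q : CuspForm (CongruenceSubgroup.Gamma0 N) k →ₗ[ℂ] (ℕ → ℂ) :=
    LinearMap.pi fun n => coeffLin N k n
  refine Module.Finite.of_injective (Q.codRestrict (Submodule.span ℂ 𝒮) hspan) ?_
  intro f g hfg
  apply ext_qCoeff
  intro n
  exact congrFun (congrArg Subtype.val hfg) n

/-- a form with rational coefficients has bounded denominators. -/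
theorem exists_denominator_cuspForm (N : ℕ) [NeZero N] (k : ℤ)
    (f : CuspForm (CongruenceSubgroup.Gamma0 N) k)
    (hf : ∀ n, ∃ q : ℚ, ModularFormClass.qCoeff f n = q) :
    ∃ D : ℤ, D ≠ 0 ∧ ∀ n, ∃ m : ℤ, (D : ℂ) * ModularFormClass.qCoeff f n = m := by
  classical
  obtain ⟨𝒮, hfin, hint, hspan⟩ := Fermat.Agent.S22.span_data N k
  have : Fintype ↥𝒮 := hfin.fintype
  have h := hspan f
  rw [← Subtype.range_coe (s := 𝒮), Submodule.mem_span_range_iff_exists_fun] at h
  obtain ⟨c, hc⟩ := h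
  let O : Submodule ℤ ℂ := Subalgebra.toSubmodule (Fermat.Agent.S22.cycRing N)
  have hO : O.FG := Fermat.Agent.S22.cycRing_fg N (NeZero.ne N)
  let M : Submodule ℤ ℂ := ⨆ s : ↥𝒮, O.map ((LinearMap.mulLeft ℂ (c s)).restrictScalars ℤ)
  have hM : M.FG := Submodule.fg_iSup _ fun s => hO.map _
  obtain ⟨D, hD0, hD⟩ := exists_denominator M hM
  refine ⟨D, hD0, fun n => ?_⟩
  obtain ⟨q, hq⟩ := hf n
  rw [hq]
  apply hD
  rw [← hq]
  have h1 : ModularFormClass.qCoeff f n = ∑ s : ↥𝒮, c s * (s : ℕ → ℂ) n := by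
    have := congrFun hc n
    rw [← this]
    simp [Finset.sum_apply]
  rw [h1]
  refine Submodule.sum_mem _ fun s _ => ?_
  exact Submodule.mem_iSup_of_mem s ⟨(s : ℕ → ℂ) n, hint s s.2 n, rfl⟩

theorem hasIntegralStructure_of_conj (N : ℕ) [NeZero N] (k : ℤ)
    (hconj : ∀ (σ : ℂ ≃+* ℂ) (f : CuspForm (CongruenceSubgroup.Gamma0 N) k),
      ∃ g : CuspForm (CongruenceSubgroup.Gamma0 N) k,
        ∀ n : ℕ, ModularFormClass.qCoeff g n = σ (ModularFormClass.qCoeff f n)) :
    CuspForm.HasIntegralStructure N k := by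
  have := finiteDimensional_cuspForm N k
  obtain ⟨ι, _, b, hb⟩ := exists_basis_rat (coeffLin N k) (fun v hv => eq_zero_of_qCoeff v hv) hconj
  unfold CuspForm.HasIntegralStructure
  rw [eq_top_iff, ← b.span_eq, Submodule.span_le]
  rintro _ ⟨i, rfl⟩
  obtain ⟨D, hD0, hD⟩ := exists_denominator_cuspForm N k (b i) (hb i)
  have hmem : (D : ℂ) • b i ∈ CuspForm.intLattice N k := by
    rw [mem_intLattice_iff]
    intro n
    obtain ⟨m, hm⟩ := hD n
    exact ⟨m, by rw [qCoeff_smul, hm]⟩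
  have hDC : (D : ℂ) ≠ 0 := by exact_mod_cast hD0
  have : b i = (D : ℂ)⁻¹ • ((D : ℂ) • b i) := by
    rw [smul_smul, inv_mul_cancel₀ hDC, one_smul]
  rw [this]
  exact Submodule.smul_mem _ _ (Submodule.subset_span hmem)

end Fermat.Agent.S23
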