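import Mathlib
import Fermat.Agent.S22.Assembly

set_option autoImplicit false
set_option linter.unusedSectionVars false

namespace Fermat.Agent.S23

open UpperHalfPlane ModularFormClass Function ModularForm Matrix.SpecialLinearGroup
open scoped MatrixGroups ModularForm Manifold Pointwise

/-- `F'` is a modular form whose `q`-expansion is the `σ`-conjugate of that of `F`. -/
def IsConj (σ : ℂ →+* ℂ) (Γ : Subgroup (GL (Fin 2) ℝ)) (k : ℤ) (F F' : ℍ → ℂ) : Prop :=
  ∃ A B : ModularForm Γ k, ⇑A = F ∧ ⇑B = F' ∧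
    qExpansion 1 B = PowerSeries.map σ (qExpansion 1 A)

section closure

variable {σ : ℂ →+* ℂ} {Γ : Subgroup (GL (Fin 2) ℝ)} [Γ.HasDetOne] {k k₁ k₂ : ℤ}
  {F F' G G' : ℍ → ℂ}

theorem IsConj.cast (h : IsConj σ Γ k₁ F F') (hk : k₁ = k₂) : IsConj σ Γ k₂ F F' := hk ▸ h

theorem IsConj.zero : IsConj σ Γ k 0 0 :=
  ⟨0, 0, rfl, rfl, by simp [qExpansion_zero]⟩

theorem IsConj.add (hΓ : (1 : ℝ) ∈ Γ.strictPeriods) (h₁ : IsConj σ Γ k F F')
    (h₂ : IsConj σ Γ k G G') : IsConj σ Γ k (F + G) (F' + G') := by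
  obtain ⟨A, B, rfl, rfl, hAB⟩ := h₁
  obtain ⟨C, D, rfl, rfl, hCD⟩ := h₂
  refine ⟨A + C, B + D, rfl, rfl, ?_⟩
  rw [FunLike.coe_add, FunLike.coe_add, ModularForm.qExpansion_add one_pos hΓ,
    ModularForm.qExpansion_add one_pos hΓ, hAB, hCD, map_add]

theorem IsConj.smul (hΓ : (1 : ℝ) ∈ Γ.strictPeriods) (c : ℂ) (h₁ : IsConj σ Γ k F F') :
    IsConj σ Γ k (c • F) (σ c • F') := by
  obtain ⟨A, B, rfl, rfl, hAB⟩ := h₁
  refine ⟨c • A, σ c • B, rfl, rfl, ?_⟩
  rw [FunLike.coe_smul, FunLike.coe_smul, ModularForm.qExpansion_smul one_pos hΓ,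
    ModularForm.qExpansion_smul one_pos hΓ, hAB]
  ext n
  simp

theorem IsConj.neg (hΓ : (1 : ℝ) ∈ Γ.strictPeriods) (h₁ : IsConj σ Γ k F F') :
    IsConj σ Γ k (-F) (-F') := by
  have := h₁.smul hΓ (-1)
  simpa using this

theorem IsConj.sub (hΓ : (1 : ℝ) ∈ Γ.strictPeriods) (h₁ : IsConj σ Γ k F F')
    (h₂ : IsConj σ Γ k G G') : IsConj σ Γ k (F - G) (F' - G') := by
  rw [sub_eq_add_neg, sub_eq_add_neg]
  exact h₁.add hΓ (h₂.neg hΓ)

theorem IsConj.mul (hΓ : (1 : ℝ) ∈ Γ.strictPeriods)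
    (h₁ : IsConj σ Γ k₁ F F') (h₂ : IsConj σ Γ k₂ G G') :
    IsConj σ Γ (k₁ + k₂) (F * G) (F' * G') := by
  obtain ⟨A, B, rfl, rfl, hAB⟩ := h₁
  obtain ⟨C, D, rfl, rfl, hCD⟩ := h₂
  refine ⟨A.mul C, B.mul D, rfl, rfl, ?_⟩
  rw [ModularForm.qExpansion_mul one_pos hΓ, ModularForm.qExpansion_mul one_pos hΓ, hAB, hCD,
    map_mul]

theorem IsConj.one : IsConj σ Γ 0 1 1 :=
  ⟨1, 1, rfl, rfl, by rw [ModularForm.qExpansion_one, map_one]⟩

theorem IsConj.pow (hΓ : (1 : ℝ) ∈ Γ.strictPeriods)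
    (h₁ : IsConj σ Γ k F F') (m : ℕ) : IsConj σ Γ (m * k) (F ^ m) (F' ^ m) := by
  obtain ⟨A, B, rfl, rfl, hAB⟩ := h₁
  refine ⟨A.pow m, B.pow m, by simp, by simp, ?_⟩
  rw [ModularForm.qExpansion_pow one_pos hΓ, ModularForm.qExpansion_pow one_pos hΓ, hAB, map_pow]

theorem IsConj.sum (hΓ : (1 : ℝ) ∈ Γ.strictPeriods) {ι : Type*} (s : Finset ι)
    {F F' : ι → ℍ → ℂ} (h : ∀ i ∈ s, IsConj σ Γ k (F i) (F' i)) :
    IsConj σ Γ k (∑ i ∈ s, F i) (∑ i ∈ s, F' i) := by
  classical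
  induction s using Finset.induction_on with
  | empty => simpa using IsConj.zero
  | insert a s ha ih =>
    rw [Finset.sum_insert ha, Finset.sum_insert ha]
    exact (h a (Finset.mem_insert_self a s)).add hΓ
      (ih fun i hi => h i (Finset.mem_insert_of_mem hi))

theorem IsConj.mono {Γ' : Subgroup (GL (Fin 2) ℝ)} (hle : Γ' ≤ Γ) (h : IsConj σ Γ k F F') :
    IsConj σ Γ' k F F' := by
  obtain ⟨A, B, rfl, rfl, hAB⟩ := h
  exact ⟨S22.restrictSubgroup hle A, S22.restrictSubgroup hle B, rfl, rfl, hAB⟩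

/-- the conjugate of zero is zero. -/
theorem IsConj.eq_zero (hΓ : (1 : ℝ) ∈ Γ.strictPeriods) (h : IsConj σ Γ k 0 F') : F' = 0 := by
  obtain ⟨A, B, hA, rfl, hAB⟩ := h
  rw [hA, qExpansion_zero, map_zero, ModularForm.qExpansion_eq_zero_iff one_pos hΓ] at hAB
  rw [hAB]
  rfl

/-- the conjugate of a nonzero form is nonzero. -/
theorem IsConj.ne_zero (hΓ : (1 : ℝ) ∈ Γ.strictPeriods) (h : IsConj σ Γ k F F') (hF : F ≠ 0) :
    F' ≠ 0 := by
  obtain ⟨A, B, rfl, rfl, hAB⟩ := h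
  intro hB
  rw [hB, qExpansion_zero] at hAB
  have h0 : qExpansion 1 A = 0 := by
    ext n
    have := congrArg (PowerSeries.coeff n) hAB
    simp only [PowerSeries.coeff_map, map_zero] at this
    simpa using this.symm
  rw [ModularForm.qExpansion_eq_zero_iff one_pos hΓ] at h0
  apply hF
  rw [h0]
  rfl

theorem IsConj.qExpansion_eq (h : IsConj σ Γ k F F') :
    qExpansion 1 F' = PowerSeries.map σ (qExpansion 1 F) := by
  obtain ⟨A, B, rfl, rfl, hAB⟩ := h
  exact hAB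

theorem IsConj.exists_right (h : IsConj σ Γ k F F') : ∃ B : ModularForm Γ k, ⇑B = F' := by
  obtain ⟨A, B, rfl, rfl, hAB⟩ := h
  exact ⟨B, rfl⟩

theorem IsConj.exists_left (h : IsConj σ Γ k F F') : ∃ A : ModularForm Γ k, ⇑A = F := by
  obtain ⟨A, B, rfl, rfl, hAB⟩ := h
  exact ⟨A, rfl⟩

/-- a form with integral `q`-expansion is its own conjugate. -/
theorem isConj_self_of_int (A : ModularForm Γ k) (c : ℚ) (P : PowerSeries ℤ)
    (h : qExpansion 1 A = (c : ℂ) • PowerSeries.map (Int.castRingHom ℂ) P) :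
    IsConj σ Γ k A A := by
  refine ⟨A, A, rfl, rfl, ?_⟩
  rw [h]
  ext n
  simp

end closure

section levelOne

open EisensteinSeries

variable (σ : ℂ →+* ℂ)

/-- every level one form of weight `k` has a conjugate. -/
def ConjProp (k : ℤ) : Prop := ∀ A : ModularForm 𝒮ℒ k, ∃ F' : ℍ → ℂ, IsConj σ 𝒮ℒ k A F'

theorem conjProp_of_forall_zero {k : ℤ} (h : ∀ F : ModularForm 𝒮ℒ k, F = 0) : ConjProp σ k := by
  intro A
  rw [h A]
  exact ⟨0, IsConj.zero⟩

theorem conjProp_zero : ConjProp σ 0 := by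
  intro A
  obtain ⟨c, hc⟩ := levelOne_weight_zero_const A
  have : (A : ℍ → ℂ) = c • (1 : ℍ → ℂ) := by
    rw [hc]; funext z; simp
  rw [this]
  exact ⟨_, IsConj.one.smul one_mem_strictPeriods_SL c⟩

theorem isConj_discriminant : IsConj σ 𝒮ℒ 12 ModularForm.discriminant ModularForm.discriminant := by
  have := isConj_self_of_int (σ := σ) (CuspForm.discriminant : ModularForm 𝒮ℒ 12) 1 S22.deltaSeries
    (by
      have := S22.discriminant_qExpansion_eq
      simpa using this)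
  simpa using this

theorem isConj_E {k : ℕ} (hk : 3 ≤ k) (hk2 : Even k) : IsConj σ 𝒮ℒ k (E hk) (E hk) := by
  refine ⟨E hk, E hk, rfl, rfl, ?_⟩
  ext m
  rw [PowerSeries.coeff_map, E_qExpansion_coeff hk hk2]
  split_ifs with hm
  · simp
  · have hrc : (-(2 * k / bernoulli k : ℂ)) = ((-(2 * k / bernoulli k) : ℚ) : ℂ) := by
      push_cast; ring
    rw [hrc, map_mul, map_ratCast, map_natCast]

theorem conjProp_step {k : ℕ} (hk : 3 ≤ k) (hk2 : Even k) (ih : ConjProp σ ((k : ℤ) - 12)) :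
    ConjProp σ k := by
  intro F
  set c0 : ℂ := (qExpansion 1 F).coeff 0 with hc0
  set F1 : ModularForm 𝒮ℒ k := F - c0 • E hk with hF1
  have hq1 : qExpansion 1 F1 = qExpansion 1 F - c0 • qExpansion 1 (E hk) := by
    rw [hF1, FunLike.coe_sub, ModularForm.qExpansion_sub one_pos one_mem_strictPeriods_SL,
      FunLike.coe_smul, ModularForm.qExpansion_smul one_pos one_mem_strictPeriods_SL]
  have hcusp : (qExpansion 1 F1).coeff 0 = 0 := by
    rw [hq1, map_sub, PowerSeries.coeff_smul, E_qExpansion_coeff_zero hk hk2]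
    simp [hc0]
  obtain ⟨G', hG'⟩ := ih (CuspForm.discriminantEquiv (toCuspForm F1 hcusp))
  have h1 := ((isConj_discriminant σ).mul one_mem_strictPeriods_SL hG').cast
    (show (12 : ℤ) + ((k : ℤ) - 12) = k by ring)
  rw [discriminant_mul_discriminantEquiv] at h1
  have h2 := ((isConj_E σ hk hk2).smul one_mem_strictPeriods_SL c0).add one_mem_strictPeriods_SL h1
  have h3 : c0 • (E hk : ℍ → ℂ) + ⇑(toCuspForm F1 hcusp) = F := by
    funext z
    simp [hF1, toCuspForm_apply]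
  rw [h3] at h2
  exact ⟨_, h2⟩

theorem conjProp_nat (k : ℕ) : ConjProp σ k := by
  induction k using Nat.strong_induction_on with | _ k ih =>
  rcases Nat.even_or_odd k with hk2 | hk2
  · rcases lt_or_ge k 3 with hk | hk
    · interval_cases k
      · exact conjProp_zero σ
      · exact absurd hk2 (by decide)
      · exact conjProp_of_forall_zero σ
          (rank_zero_iff_forall_zero.mp levelOne_weight_two_rank_zero)
    · apply conjProp_step σ hk hk2
      rcases lt_or_ge k 12 with h12 | h12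
      · exact conjProp_of_forall_zero σ
          (rank_zero_iff_forall_zero.mp (levelOne_neg_weight_rank_zero (by omega)))
      · have := ih (k - 12) (by omega)
        rwa [show ((k - 12 : ℕ) : ℤ) = (k : ℤ) - 12 by omega] at this
  · exact conjProp_of_forall_zero σ (levelOne_odd_weight_eq_zero (by exact_mod_cast hk2))

/-- every level one form has a conjugate. -/
theorem exists_isConj_levelOne {k : ℤ} (A : ModularForm 𝒮ℒ k) :
    ∃ F' : ℍ → ℂ, IsConj σ 𝒮ℒ k A F' := by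
  rcases lt_or_ge k 0 with hk | hk
  · exact conjProp_of_forall_zero σ
      (rank_zero_iff_forall_zero.mp (levelOne_neg_weight_rank_zero hk)) A
  · lift k to ℕ using hk
    exact conjProp_nat σ k A

end levelOne

section level

theorem hForm_coeff (N : ℕ) (hN : N ≠ 0) (n : ℕ) :
    ∃ z : ℤ, (qExpansion 1 (S22.hForm N hN)).coeff n = (N : ℂ) ^ 11 * z := by
  obtain ⟨P, hP1, hP2, hP3⟩ := S22.discriminant_qExpansion_int
  have hP : S22.DeltaInt P := ⟨hP1, hP2, hP3⟩
  have h1 := S22.hForm_qExpansion hN hP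
  rw [S22.qExpansion_nat_eq_expandC hN _ (CongruenceSubgroup.one_mem_strictPeriods_Gamma0 N)] at h1
  have h2 := congrArg (PowerSeries.coeff (n * N)) h1
  simp only [S22.expandC, LinearMap.coe_mk, AddHom.coe_mk, PowerSeries.coeff_mk] at h2
  rw [if_pos (Dvd.intro_left n rfl), Nat.mul_div_cancel _ (Nat.pos_of_ne_zero hN)] at h2
  rw [h2, PowerSeries.coeff_smul, S22.coeff_phi, S22.triInt, PowerSeries.coeff_mk]
  have hc : S22.triConst N 1 = (N : ℂ) ^ 11 := by
    unfold S22.triConst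
    norm_num
  rw [hc]
  split_ifs
  · exact ⟨P.coeff (n * N / N ^ 2), by simp⟩
  · exact ⟨0, by simp⟩

theorem isConj_hForm (σ : ℂ →+* ℂ) (N : ℕ) (hN : N ≠ 0) :
    IsConj σ (CongruenceSubgroup.Gamma0 N : Subgroup (GL (Fin 2) ℝ)) 12
      (S22.hForm N hN) (S22.hForm N hN) := by
  refine ⟨S22.hForm N hN, S22.hForm N hN, rfl, rfl, ?_⟩
  ext n
  obtain ⟨z, hz⟩ := hForm_coeff N hN n
  rw [PowerSeries.coeff_map, hz]
  simp

end level

end Fermat.Agent.S23
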