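import Mathlib

set_option autoImplicit false

namespace Fermat.Agent.S23

open UpperHalfPlane Filter Topology
open scoped MatrixGroups ModularForm Manifold

/-- bound for the roots of a monic polynomial. -/
theorem norm_le_of_monic {n : ℕ} (c : ℕ → ℂ) (x : ℂ)
    (h : x ^ n + ∑ l ∈ Finset.range n, c l * x ^ l = 0) :
    ‖x‖ ≤ max 1 (∑ l ∈ Finset.range n, ‖c l‖) := by
  rcases le_or_gt ‖x‖ 1 with h1 | h1
  · exact le_max_of_le_left h1
  · apply le_max_of_le_right
    rcases Nat.eq_zero_or_pos n with rfl | hn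
    · simp at h
    have hx : x ^ n = - ∑ l ∈ Finset.range n, c l * x ^ l := eq_neg_of_add_eq_zero_left h
    have h2 : ‖x‖ ^ n ≤ (∑ l ∈ Finset.range n, ‖c l‖) * ‖x‖ ^ (n - 1) := by
      rw [← norm_pow, hx, norm_neg, Finset.sum_mul]
      refine (norm_sum_le _ _).trans (Finset.sum_le_sum fun l hl => ?_)
      rw [norm_mul, norm_pow]
      refine mul_le_mul_of_nonneg_left ?_ (norm_nonneg _)
      exact pow_le_pow_right₀ h1.le (by have := Finset.mem_range.mp hl; omega)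
    have h3 : ‖x‖ ^ n = ‖x‖ * ‖x‖ ^ (n - 1) := by
      rw [← pow_succ', Nat.sub_add_cancel hn]
    rw [h3] at h2
    exact le_of_mul_le_mul_right h2 (by positivity)

theorem norm_pow_le_of_monic {n : ℕ} (c : ℕ → ℂ) (x : ℂ)
    (h : x ^ n + ∑ l ∈ Finset.range n, c l * x ^ l = 0)
    (hc : ∑ l ∈ Finset.range n, ‖c l‖ ≤ 1) :
    ‖x‖ ^ n ≤ ∑ l ∈ Finset.range n, ‖c l‖ := by
  have h1 : ‖x‖ ≤ 1 := by
    have := norm_le_of_monic c x h
    rwa [max_eq_left hc] at this
  have hx : x ^ n = - ∑ l ∈ Finset.range n, c l * x ^ l := eq_neg_of_add_eq_zero_left h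
  rw [← norm_pow, hx, norm_neg]
  refine (norm_sum_le _ _).trans (Finset.sum_le_sum fun l _ => ?_)
  rw [norm_mul, norm_pow]
  exact mul_le_of_le_one_right (norm_nonneg _) (pow_le_one₀ (norm_nonneg _) h1)

theorem isZeroAtImInfty_of_monic {G : ℍ → ℂ} {n : ℕ} (d : ℕ → ℍ → ℂ)
    (hd : ∀ l < n, IsZeroAtImInfty (d l))
    (h : G ^ n + ∑ l ∈ Finset.range n, d l * G ^ l = 0) : IsZeroAtImInfty G := by
  have hn : n ≠ 0 := by
    rintro rfl
    have := congrFun h I
    simp at this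
  have hs : Tendsto (fun z => ∑ l ∈ Finset.range n, ‖d l z‖) atImInfty (𝓝 0) := by
    have : Tendsto (fun z => ∑ l ∈ Finset.range n, ‖d l z‖) atImInfty
        (𝓝 (∑ l ∈ Finset.range n, (0 : ℝ))) := by
      refine tendsto_finsetSum _ fun l hl => ?_
      have := (hd l (Finset.mem_range.mp hl)).norm
      simpa using this
    simpa using this
  have hz : ∀ z, G z ^ n + ∑ l ∈ Finset.range n, d l z * G z ^ l = 0 := by
    intro z
    have := congrFun h z
    simpa using this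
  have hle : ∀ᶠ z in atImInfty, ∑ l ∈ Finset.range n, ‖d l z‖ ≤ 1 :=
    (hs.eventually (gt_mem_nhds zero_lt_one)).mono fun _ hz => le_of_lt hz
  have hp : Tendsto (fun z => ‖G z‖ ^ n) atImInfty (𝓝 0) := by
    refine squeeze_zero' (Eventually.of_forall fun z => by positivity) ?_ hs
    filter_upwards [hle] with z hz1
    exact norm_pow_le_of_monic (fun l => d l z) (G z) (hz z) hz1
  show Tendsto G atImInfty (𝓝 0)
  rw [tendsto_zero_iff_norm_tendsto_zero]
  rw [Metric.tendsto_nhds] at hp ⊢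
  intro ε hε
  filter_upwards [hp (ε ^ n) (by positivity)] with z hz1
  rw [Real.dist_eq, sub_zero, abs_of_nonneg (by positivity)] at hz1 ⊢
  exact lt_of_pow_lt_pow_left₀ n hε.le hz1

theorem mdiff_mul_eq_zero {F G : ℍ → ℂ} (hF : MDiff F) (hG : MDiff G) (h : F * G = 0) :
    F = 0 ∨ G = 0 :=
  (UpperHalfPlane.mul_eq_zero_iff hF hG).mp h

theorem exists_mdiff_quotient {P Q : ℍ → ℂ} (hP : MDiff P) (hQ : MDiff Q) (hQ0 : Q ≠ 0) {n : ℕ}
    (d : ℕ → ℍ → ℂ) (hd : ∀ l, MDiff (d l))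
    (h : P ^ n + ∑ l ∈ Finset.range n, d l * Q ^ (n - l) * P ^ l = 0) :
    ∃ g : ℍ → ℂ, MDiff g ∧ g * Q = P := by
  obtain ⟨U, hUdef⟩ : ∃ U : Set ℂ, U = {z | 0 < z.im} := ⟨_, rfl⟩
  have hU : IsOpen U := hUdef ▸ isOpen_upperHalfPlaneSet
  have hUc : IsPreconnected U := by
    rw [hUdef]
    exact (Complex.isConnected_of_upperHalfPlane subset_rfl (by grind)).isPreconnected
  have hmem : ∀ τ : ℍ, (τ : ℂ) ∈ U := fun τ => by rw [hUdef]; exact τ.im_pos
  have hp : AnalyticOnNhd ℂ (P ∘ ofComplex) U :=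
    (hUdef ▸ UpperHalfPlane.mdifferentiable_iff.mp hP).analyticOnNhd hU
  have hq : AnalyticOnNhd ℂ (Q ∘ ofComplex) U :=
    (hUdef ▸ UpperHalfPlane.mdifferentiable_iff.mp hQ).analyticOnNhd hU
  have hdd : ∀ l, AnalyticOnNhd ℂ (d l ∘ ofComplex) U := fun l =>
    (hUdef ▸ UpperHalfPlane.mdifferentiable_iff.mp (hd l)).analyticOnNhd hU
  obtain ⟨p, hpdef⟩ : ∃ p : ℂ → ℂ, p = P ∘ ofComplex := ⟨_, rfl⟩
  obtain ⟨q, hqdef⟩ : ∃ q : ℂ → ℂ, q = Q ∘ ofComplex := ⟨_, rfl⟩
  obtain ⟨e, hedef⟩ : ∃ e : ℕ → ℂ → ℂ, e = fun l => d l ∘ ofComplex := ⟨_, rfl⟩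
  rw [← hpdef] at hp
  rw [← hqdef] at hq
  have he : ∀ l, AnalyticOnNhd ℂ (e l) U := fun l => by rw [hedef]; exact hdd l
  have hrel : ∀ z, p z ^ n + ∑ l ∈ Finset.range n, e l z * q z ^ (n - l) * p z ^ l = 0 := by
    intro z
    have := congrFun h (ofComplex z)
    simpa [hpdef, hqdef, hedef] using this
  have hr : MeromorphicOn (p / q) U :=
    fun x hx => (hp x hx).meromorphicAt.div (hq x hx).meromorphicAt
  have hqne : ∀ x ∈ U, ∀ᶠ z in 𝓝[≠] x, q z ≠ 0 := by
    intro x hx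
    rcases (hq x hx).eventually_eq_zero_or_eventually_ne_zero with h0 | h0
    · exfalso
      apply hQ0
      have := hq.eqOn_zero_of_preconnected_of_eventuallyEq_zero hUc hx h0
      ext τ
      have h1 := this (hmem τ)
      simpa [hqdef] using h1
    · exact h0
  have hord : ∀ x ∈ U, 0 ≤ meromorphicOrderAt (p / q) x := by
    intro x hx
    by_contra hneg
    rw [not_le] at hneg
    have ht := tendsto_cobounded_of_meromorphicOrderAt_neg hneg
    have ht2 := tendsto_norm_cobounded_atTop.comp ht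
    have hcont : ContinuousAt (fun z => ∑ l ∈ Finset.range n, ‖e l z‖) x :=
      tendsto_finsetSum _ fun l _ => ((he l x hx).continuousAt.norm)
    have hb : ∀ᶠ z in 𝓝[≠] x, ∑ l ∈ Finset.range n, ‖e l z‖ <
        (∑ l ∈ Finset.range n, ‖e l x‖) + 1 :=
      (hcont.eventually (gt_mem_nhds (lt_add_one _))).filter_mono nhdsWithin_le_nhds
    have hbig := ht2.eventually (eventually_gt_atTop
      (max 1 ((∑ l ∈ Finset.range n, ‖e l x‖) + 1)))
    obtain ⟨z, hz1, hz2, hz3⟩ := (hb.and (hbig.and (hqne x hx))).exists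
    have hroot : (p z / q z) ^ n + ∑ l ∈ Finset.range n, e l z * (p z / q z) ^ l = 0 := by
      have h1 : (p z / q z) ^ n + ∑ l ∈ Finset.range n, e l z * (p z / q z) ^ l =
          (p z ^ n + ∑ l ∈ Finset.range n, e l z * q z ^ (n - l) * p z ^ l) / q z ^ n := by
        rw [add_div, Finset.sum_div, div_pow]
        congr 1
        apply Finset.sum_congr rfl
        intro l hl
        have hl' : l ≤ n := (Finset.mem_range.mp hl).le
        have : q z ^ n = q z ^ (n - l) * q z ^ l := by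
          rw [← pow_add, Nat.sub_add_cancel hl']
        rw [this, div_pow]
        field_simp
      rw [h1, hrel z, zero_div]
    have hle := norm_le_of_monic (fun l => e l z) (p z / q z) hroot
    have hz2' : max 1 ((∑ l ∈ Finset.range n, ‖e l x‖) + 1) < ‖p z / q z‖ := hz2
    have : max 1 (∑ l ∈ Finset.range n, ‖e l z‖) ≤
        max 1 ((∑ l ∈ Finset.range n, ‖e l x‖) + 1) := max_le_max le_rfl hz1.le
    linarith
  obtain ⟨G, hGdef⟩ : ∃ G : ℂ → ℂ, G = toMeromorphicNFOn (p / q) U := ⟨_, rfl⟩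
  have hGan : AnalyticOnNhd ℂ G U := by
    intro x hx
    have h1 : MeromorphicNFAt G x := hGdef ▸ meromorphicNFOn_toMeromorphicNFOn (p / q) U hx
    rw [← h1.meromorphicOrderAt_nonneg_iff_analyticAt, hGdef,
      meromorphicOrderAt_toMeromorphicNFOn hr hx]
    exact hord x hx
  refine ⟨fun τ => G τ, ?_, ?_⟩
  · rw [UpperHalfPlane.mdifferentiable_iff, ← hUdef]
    refine hGan.differentiableOn.congr ?_
    intro z hz
    have hz' : 0 < z.im := by rw [hUdef] at hz; exact hz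
    simp [ofComplex_apply_of_im_pos hz']
  · ext τ
    have hx := hmem τ
    have h1 : ∀ᶠ z in 𝓝[≠] (τ : ℂ), G z * q z = p z := by
      have h2 : G =ᶠ[𝓝[≠] (τ : ℂ)] p / q := hGdef ▸ hr.toMeromorphicNFOn_eq_self_on_nhdsNE hx
      filter_upwards [h2, hqne _ hx] with z hz1 hz2
      rw [hz1, Pi.div_apply, div_mul_cancel₀ _ hz2]
    have h3 := (((hGan _ hx).mul (hq _ hx)).frequently_eq_iff_eventually_eq (hp _ hx)).mp
      h1.frequently
    have h4 := h3.self_of_nhds
    simpa [hqdef, hpdef] using h4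

end Fermat.Agent.S23
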