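import Mathlib
import Fermat.Agent.S23.Quotient
import Fermat.Agent.S22.Identity

set_option autoImplicit false

namespace Fermat.Agent.S23

open UpperHalfPlane ModularFormClass Function ModularForm Matrix.SpecialLinearGroup
open scoped MatrixGroups ModularForm Manifold Pointwise

theorem eq_zero_of_pow_mul_eq_zero {Q W : ℍ → ℂ} (hQ : MDiff Q) (hW : MDiff W) (hQ0 : Q ≠ 0)
    (n : ℕ) (h : Q ^ n * W = 0) : W = 0 := by
  induction n with
  | zero => simpa using h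
  | succ n ih =>
    apply ih
    rw [pow_succ', mul_assoc] at h
    rcases mdiff_mul_eq_zero hQ ((hQ.pow n).mul hW) h with h1 | h1
    · exact absurd h1 hQ0
    · exact h1

/-- slashing a monic equation with level one coefficients. -/
theorem monic_slash {k : ℤ} {n : ℕ} (g : ℍ → ℂ) (d : ℕ → ℍ → ℂ)
    (hd : ∀ l : ℕ, ∃ D : CuspForm 𝒮ℒ (k * ((n : ℤ) - l)), ⇑D = d l)
    (h : g ^ n + ∑ l ∈ Finset.range n, d l * g ^ l = 0) (A : SL(2, ℤ)) :
    (g ∣[k] A) ^ n + ∑ l ∈ Finset.range n, d l * (g ∣[k] A) ^ l = 0 := by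
  have h1 := congrArg (fun F : ℍ → ℂ => F ∣[(n : ℤ) * k] A) h
  simp only [SlashAction.add_slash, SlashAction.zero_slash, SlashAction.sum_slash] at h1
  rw [S22.pow_slash_SL2] at h1
  rw [← h1]
  congr 1
  refine Finset.sum_congr rfl fun l _ => ?_
  obtain ⟨D, hD⟩ := hd l
  have hw : (n : ℤ) * k = k * ((n : ℤ) - l) + (l : ℤ) * k := by ring
  rw [hw, mul_slash_SL2, S22.pow_slash_SL2, ← hD]
  congr 1
  have hmem : mapGL ℝ A ∈ 𝒮ℒ := ⟨A, rfl⟩
  exact (SlashInvariantFormClass.slash_action_eq D _ hmem).symm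

theorem exists_cuspForm_of_monic {N : ℕ} [NeZero N] {k K : ℤ} {n : ℕ}
    (P : ModularForm (CongruenceSubgroup.Gamma0 N) (k + K))
    (Q : ModularForm (CongruenceSubgroup.Gamma0 N) K) (hQ : (Q : ℍ → ℂ) ≠ 0) (d : ℕ → ℍ → ℂ)
    (hd : ∀ l : ℕ, ∃ D : CuspForm 𝒮ℒ (k * ((n : ℤ) - l)), ⇑D = d l)
    (h : (P : ℍ → ℂ) ^ n + ∑ l ∈ Finset.range n, d l * (Q : ℍ → ℂ) ^ (n - l) * (P : ℍ → ℂ) ^ l = 0) :
    ∃ g : CuspForm (CongruenceSubgroup.Gamma0 N) k, (g : ℍ → ℂ) * Q = P := by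
  have hdm : ∀ l, MDiff (d l) := by
    intro l
    obtain ⟨D, hD⟩ := hd l
    rw [← hD]
    exact CuspFormClass.holo D
  have hPm : MDiff (P : ℍ → ℂ) := ModularFormClass.holo P
  have hQm : MDiff (Q : ℍ → ℂ) := ModularFormClass.holo Q
  obtain ⟨g, hgm, hg⟩ := exists_mdiff_quotient hPm hQm hQ d hdm h
  -- the monic equation
  have hmonic : g ^ n + ∑ l ∈ Finset.range n, d l * g ^ l = 0 := by
    apply eq_zero_of_pow_mul_eq_zero hQm
      ((hgm.pow n).add (MDifferentiable.sum fun l _ => (hdm l).mul (hgm.pow l))) hQ n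
    rw [← h, ← hg, mul_add, Finset.mul_sum, mul_pow, mul_comm]
    congr 1
    refine Finset.sum_congr rfl fun l hl => ?_
    have hl' := Finset.mem_range.mp hl
    have : (Q : ℍ → ℂ) ^ n = (Q : ℍ → ℂ) ^ (n - l) * (Q : ℍ → ℂ) ^ l := by
      rw [← pow_add]; congr 1; omega
    rw [this, mul_pow]
    ring
  -- invariance
  have hinv : ∀ γ ∈ (CongruenceSubgroup.Gamma0 N : Subgroup (GL (Fin 2) ℝ)), g ∣[k] γ = g := by
    rintro _ ⟨A, hA, rfl⟩
    have hmem : mapGL ℝ A ∈ (CongruenceSubgroup.Gamma0 N : Subgroup (GL (Fin 2) ℝ)) := ⟨A, hA, rfl⟩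
    have h1 : (g * (Q : ℍ → ℂ)) ∣[k + K] A = (g ∣[k] A) * ((Q : ℍ → ℂ) ∣[K] A) :=
      mul_slash_SL2 k K A g Q
    have h2 : ((Q : ℍ → ℂ) ∣[K] A) = Q := SlashInvariantFormClass.slash_action_eq Q _ hmem
    have h3 : ((P : ℍ → ℂ) ∣[k + K] A) = P := SlashInvariantFormClass.slash_action_eq P _ hmem
    rw [hg, h2, h3, ← hg] at h1
    have h4 : ((g ∣[k] A) - g) * (Q : ℍ → ℂ) = 0 := by
      rw [sub_mul, ← h1, sub_self]
    rcases mdiff_mul_eq_zero ((hgm.slash k _).sub hgm) hQm h4 with h5 | h5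
    · exact sub_eq_zero.mp h5
    · exact absurd h5 hQ
  refine ⟨{ toFun := g, slash_action_eq' := hinv, holo' := hgm, zero_at_cusps' := ?_ }, hg⟩
  intro c hc
  rw [Subgroup.IsArithmetic.isCusp_iff_isCusp_SL2Z] at hc
  rw [OnePoint.isZeroAt_iff_forall_SL2Z hc]
  intro A _
  refine isZeroAtImInfty_of_monic d (fun l _ => ?_) (monic_slash g d hd hmonic A)
  obtain ⟨D, hD⟩ := hd l
  rw [← hD]
  exact CuspFormClass.zero_at_infty D

end Fermat.Agent.S23
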