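import Mathlib
import Fermat.Agent.S22.Assembly

set_option autoImplicit false
set_option linter.unusedSectionVars false

namespace Fermat.Agent.S23

open UpperHalfPlane ModularFormClass Function ModularForm Matrix.SpecialLinearGroup
open scoped MatrixGroups ModularForm Manifold Pointwise

section ring

variable {R ι : Type*} [CommRing R]

/-- elementary symmetric function of the family `x` restricted to `s`. -/
def esy (x : ι → R) (s : Finset ι) (l : ℕ) : R := ∑ t ∈ s.powersetCard l, ∏ i ∈ t, x i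

theorem esy_zero (x : ι → R) (s : Finset ι) : esy x s 0 = 1 := by
  simp [esy]

theorem esy_succ_insert [DecidableEq ι] (x : ι → R) {s : Finset ι} {a : ι} (ha : a ∉ s) (l : ℕ) :
    esy x (insert a s) (l + 1) = esy x s (l + 1) + x a * esy x s l := by
  unfold esy
  rw [Finset.powersetCard_succ_insert ha, Finset.sum_union, Finset.sum_image, Finset.mul_sum]
  · congr 1
    refine Finset.sum_congr rfl fun t ht => ?_
    rw [Finset.prod_insert]
    intro hat
    exact ha ((Finset.mem_powersetCard.mp ht).1 hat)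
  · intro t ht t' ht' h
    have h1 : a ∉ t := fun hat => ha ((Finset.mem_powersetCard.mp ht).1 hat)
    have h2 : a ∉ t' := fun hat => ha ((Finset.mem_powersetCard.mp ht').1 hat)
    rw [← Finset.erase_insert h1, ← Finset.erase_insert h2, h]
  · rw [Finset.disjoint_left]
    intro t ht ht'
    obtain ⟨u, -, rfl⟩ := Finset.mem_image.mp ht'
    exact ha ((Finset.mem_powersetCard.mp ht).1 (Finset.mem_insert_self a u))

theorem sum_powerset_regroup [DecidableEq ι] (x : ι → R) (s : Finset ι) (T : ℕ → R) :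
    ∑ t ∈ s.powerset, (∏ i ∈ t, (- x i)) * T (s \ t).card =
      ∑ l ∈ Finset.range (s.card + 1), (-1) ^ l * esy x s l * T (s.card - l) := by
  rw [Finset.sum_powerset]
  refine Finset.sum_congr rfl fun l _ => ?_
  unfold esy
  rw [Finset.mul_sum, Finset.sum_mul]
  refine Finset.sum_congr rfl fun t ht => ?_
  obtain ⟨hts, hcard⟩ := Finset.mem_powersetCard.mp ht
  rw [Finset.card_sdiff_of_subset hts, hcard, Finset.prod_neg, hcard]

theorem prod_sub_eq_sum_esy [DecidableEq ι] (x : ι → R) (s : Finset ι) (u : R) :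
    ∏ c ∈ s, (u - x c) =
      ∑ l ∈ Finset.range (s.card + 1), (-1) ^ l * esy x s l * u ^ (s.card - l) := by
  rw [← sum_powerset_regroup x s (fun m => u ^ m)]
  have := Finset.prod_add (fun i => - x i) (fun _ => u) s
  simp only [Finset.prod_const] at this
  rw [← this]
  exact Finset.prod_congr rfl fun _ _ => by ring

theorem esy_comp_equiv [Fintype ι] (x : ι → R) (e : ι ≃ ι) (l : ℕ) :
    esy (fun i => x (e i)) Finset.univ l = esy x Finset.univ l := by
  unfold esy
  refine Finset.sum_equiv e.finsetCongr ?_ ?_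
  · intro t
    simp [Finset.mem_powersetCard]
  · intro t _
    simp [Equiv.finsetCongr_apply, Finset.prod_map]

end ring

section forms

variable {N : ℕ} [NeZero N] {k : ℤ} {F : Type*} [FunLike F ℍ ℂ]

theorem esy_slash {ι : Type*} (x : ι → ℍ → ℂ) (s : Finset ι) (l : ℕ) {γ : GL (Fin 2) ℝ}
    (hγ : γ ∈ 𝒮ℒ) :
    esy x s l ∣[k * l] γ = esy (fun c => x c ∣[k] γ) s l := by
  unfold esy
  rw [SlashAction.sum_slash]
  refine Finset.sum_congr rfl fun t ht => ?_
  obtain ⟨-, hcard⟩ := Finset.mem_powersetCard.mp ht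
  rw [← hcard, ModularForm.prod_slash, Subgroup.HasDetPlusMinusOne.abs_det hγ]
  simp

/-- the conjugates of a form. -/
noncomputable def conjFam (f : F) [SlashInvariantFormClass F (CongruenceSubgroup.Gamma0 N) k] :
    S22.Quo N → ℍ → ℂ := fun c => SlashInvariantForm.quotientFunc f c

theorem conjFam_one (f : F) [SlashInvariantFormClass F (CongruenceSubgroup.Gamma0 N) k] :
    conjFam f (⟦1⟧ : S22.Quo N) = f := by
  simp [conjFam]

theorem conjFam_exists (f : F) [SlashInvariantFormClass F (CongruenceSubgroup.Gamma0 N) k]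
    (c : S22.Quo N) : ∃ A : SL(2, ℤ), conjFam f c = (f : ℍ → ℂ) ∣[k] A := by
  induction c using Quotient.inductionOn with
  | h r =>
    obtain ⟨A, hA⟩ : ∃ A : SL(2, ℤ), mapGL ℝ A = r.val⁻¹ := inv_mem r.2
    refine ⟨A, ?_⟩
    simp only [conjFam, SlashInvariantForm.quotientFunc_mk]
    rw [← hA]
    rfl

theorem conjFam_mdiff (f : F) [ModularFormClass F (CongruenceSubgroup.Gamma0 N) k]
    (c : S22.Quo N) : MDiff (conjFam f c) := by
  obtain ⟨A, hA⟩ := conjFam_exists f c
  rw [hA]
  exact (ModularFormClass.holo f).slash k _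

theorem conjFam_bdd (f : F) [ModularFormClass F (CongruenceSubgroup.Gamma0 N) k]
    (c : S22.Quo N) : IsBoundedAtImInfty (conjFam f c) := by
  obtain ⟨A, hA⟩ := conjFam_exists f c
  rw [hA]
  exact ModularFormClass.bdd_at_infty_slash f A

theorem conjFam_zero (f : F) [CuspFormClass F (CongruenceSubgroup.Gamma0 N) k]
    (c : S22.Quo N) : IsZeroAtImInfty (conjFam f c) := by
  obtain ⟨A, hA⟩ := conjFam_exists f c
  rw [hA]
  exact CuspFormClass.zero_at_infty_slash f A

theorem esy_conjFam_slash [Fintype (S22.Quo N)] (f : F)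
    [SlashInvariantFormClass F (CongruenceSubgroup.Gamma0 N) k] (l : ℕ) {γ : GL (Fin 2) ℝ}
    (hγ : γ ∈ 𝒮ℒ) :
    esy (conjFam f) Finset.univ l ∣[k * l] γ = esy (conjFam (N := N) f) Finset.univ l := by
  rw [esy_slash _ _ _ hγ]
  have : (fun c => conjFam (N := N) f c ∣[k] γ) =
      fun c => conjFam f (MulAction.toPerm ((⟨γ, hγ⟩ : 𝒮ℒ)⁻¹) c) := by
    funext c
    exact SlashInvariantForm.quotientFunc_smul f hγ c
  rw [this]
  exact esy_comp_equiv (conjFam f) _ l

theorem esy_bdd {ι : Type} (x : ι → ℍ → ℂ) (s : Finset ι) (l : ℕ)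
    (hx : ∀ c, IsBoundedAtImInfty (x c)) : IsBoundedAtImInfty (esy x s l) :=
  (Filter.boundedFilterSubalgebra ℂ atImInfty).sum_mem fun t _ =>
    (Filter.boundedFilterSubalgebra ℂ atImInfty).prod_mem (f := x) fun c _ => hx c

theorem esy_zeroAt {ι : Type} (x : ι → ℍ → ℂ) (s : Finset ι) (l : ℕ)
    (hx : ∀ c, IsZeroAtImInfty (x c)) : IsZeroAtImInfty (esy x s (l + 1)) := by
  classical
  refine (Filter.zeroAtFilterSubmodule ℂ atImInfty).sum_mem fun t ht => ?_
  obtain ⟨-, hcard⟩ := Finset.mem_powersetCard.mp ht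
  obtain ⟨a, ha⟩ : t.Nonempty := by
    rw [← Finset.card_pos]; omega
  rw [← Finset.mul_prod_erase t x ha]
  exact Filter.ZeroAtFilter.mul_boundedAtFilter (hx a)
    (Filter.BoundedAtFilter.prod _ fun c _ => (hx c).boundedAtFilter)

/-- the elementary symmetric functions of the conjugates, as level one forms. -/
noncomputable def esymmForm [Fintype (S22.Quo N)] (f : F)
    [ModularFormClass F (CongruenceSubgroup.Gamma0 N) k] (l : ℕ) : ModularForm 𝒮ℒ (k * l) where
  toFun := esy (conjFam (N := N) f) Finset.univ l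
  slash_action_eq' γ hγ := esy_conjFam_slash f l hγ
  holo' := MDifferentiable.sum fun t _ => MDifferentiable.prod fun c _ => conjFam_mdiff f c
  bdd_at_cusps' {c} hc := by
    rw [Subgroup.IsArithmetic.isCusp_iff_isCusp_SL2Z] at hc
    rw [OnePoint.isBoundedAt_iff_forall_SL2Z hc]
    intro γ _
    rw [show (esy (conjFam (N := N) f) Finset.univ l ∣[k * l] γ) = _ from
      esy_conjFam_slash f l ⟨γ, rfl⟩]
    exact esy_bdd _ _ _ (conjFam_bdd f)

theorem coe_esymmForm [Fintype (S22.Quo N)] (f : F)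
    [ModularFormClass F (CongruenceSubgroup.Gamma0 N) k] (l : ℕ) :
    ⇑(esymmForm (N := N) f l) = esy (conjFam (N := N) f) Finset.univ l := rfl

theorem esymmForm_coeff_zero [Fintype (S22.Quo N)] (f : F)
    [CuspFormClass F (CongruenceSubgroup.Gamma0 N) k] (l : ℕ) :
    (qExpansion 1 (esymmForm (N := N) f (l + 1))).coeff 0 = 0 := by
  have h : IsZeroAtImInfty (esymmForm (N := N) f (l + 1)) := by
    rw [coe_esymmForm]
    exact esy_zeroAt _ _ _ (conjFam_zero f)
  rw [qExpansion_coeff_zero one_pos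
      (ModularFormClass.analyticAt_cuspFunction_zero _ one_pos one_mem_strictPeriods_SL)
      (SlashInvariantFormClass.periodic_comp_ofComplex _ one_mem_strictPeriods_SL)]
  exact h.valueAtInfty_eq_zero

end forms

end Fermat.Agent.S23
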