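import Mathlib
import Fermat.Agent.S23.Conj
import Fermat.Agent.S23.Sym
import Fermat.Agent.S23.Cusp

set_option autoImplicit false
set_option linter.unusedSectionVars false

namespace Fermat.Agent.S23

open UpperHalfPlane ModularFormClass Function ModularForm Matrix.SpecialLinearGroup
open scoped MatrixGroups ModularForm Manifold Pointwise

theorem Gamma0_le_SL (N : ℕ) : (CongruenceSubgroup.Gamma0 N : Subgroup (GL (Fin 2) ℝ)) ≤ 𝒮ℒ := by
  rintro _ ⟨γ, -, rfl⟩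
  exact ⟨γ, rfl⟩

theorem IsConj.neg_one_pow_mul {σ : ℂ →+* ℂ} {Γ : Subgroup (GL (Fin 2) ℝ)} [Γ.HasDetOne] {k : ℤ}
    {F F' : ℍ → ℂ} (hΓ : (1 : ℝ) ∈ Γ.strictPeriods) (h : IsConj σ Γ k F F') (l : ℕ) :
    IsConj σ Γ k ((-1) ^ l * F) ((-1) ^ l * F') := by
  rcases neg_one_pow_eq_or (ℍ → ℂ) l with h1 | h1
  · rw [h1, one_mul, one_mul]; exact h
  · rw [h1, neg_one_mul, neg_one_mul]; exact h.neg hΓ

section main

variable {N : ℕ} [NeZero N] {k : ℤ} (σ : ℂ →+* ℂ) [Fintype (S22.Quo N)] [DecidableEq (S22.Quo N)]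

theorem exists_isConj_esy_erase (l : ℕ) :
    ∃ F' : ℍ → ℂ, IsConj σ (CongruenceSubgroup.Gamma0 N : Subgroup (GL (Fin 2) ℝ)) (12 * l)
      (esy (conjFam (S22.hForm N (NeZero.ne N))) (Finset.univ.erase (⟦1⟧ : S22.Quo N)) l) F' := by
  have hΓ := CongruenceSubgroup.one_mem_strictPeriods_Gamma0 N
  induction l with
  | zero =>
    refine ⟨1, ?_⟩
    rw [esy_zero]
    exact IsConj.one.cast (by simp)
  | succ l ih =>
    obtain ⟨F', hF'⟩ := ih
    obtain ⟨E', hE'⟩ := exists_isConj_levelOne σ (esymmForm (N := N) (S22.hForm N (NeZero.ne N)) (l + 1))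
    have h1 := esy_succ_insert (conjFam (S22.hForm N (NeZero.ne N)))
      (s := Finset.univ.erase (⟦1⟧ : S22.Quo N)) (a := ⟦1⟧) (Finset.notMem_erase _ _) l
    rw [Finset.insert_erase (Finset.mem_univ _), conjFam_one] at h1
    have h2 : esy (conjFam (S22.hForm N (NeZero.ne N))) (Finset.univ.erase (⟦1⟧ : S22.Quo N)) (l + 1)
        = esy (conjFam (S22.hForm N (NeZero.ne N))) Finset.univ (l + 1) -
          ⇑(S22.hForm N (NeZero.ne N)) *
            esy (conjFam (S22.hForm N (NeZero.ne N))) (Finset.univ.erase (⟦1⟧ : S22.Quo N)) l := by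
      rw [h1]; ring
    rw [h2]
    rw [coe_esymmForm] at hE'
    exact ⟨_, (hE'.mono (Gamma0_le_SL N)).sub hΓ
      (((isConj_hForm σ N (NeZero.ne N)).mul hΓ hF').cast (by push_cast; ring))⟩

/-- the denominator. -/
noncomputable def denomQ (N : ℕ) [NeZero N] [Fintype (S22.Quo N)] [DecidableEq (S22.Quo N)] :
    ℍ → ℂ :=
  ∏ c ∈ Finset.univ.erase (⟦1⟧ : S22.Quo N),
    (⇑(S22.hForm N (NeZero.ne N)) - conjFam (S22.hForm N (NeZero.ne N)) c)

theorem exists_isConj_denomQ :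
    ∃ Q' : ℍ → ℂ, IsConj σ (CongruenceSubgroup.Gamma0 N : Subgroup (GL (Fin 2) ℝ))
      (12 * (Finset.univ.erase (⟦1⟧ : S22.Quo N)).card) (denomQ N) Q' := by
  have hΓ := CongruenceSubgroup.one_mem_strictPeriods_Gamma0 N
  choose ε hε using exists_isConj_esy_erase (N := N) σ
  unfold denomQ
  rw [prod_sub_eq_sum_esy]
  refine ⟨_, IsConj.sum hΓ _ (F' := fun l => (-1) ^ l * ε l *
    ⇑(S22.hForm N (NeZero.ne N)) ^ ((Finset.univ.erase (⟦1⟧ : S22.Quo N)).card - l)) ?_⟩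
  intro l hl
  have hl' : l ≤ (Finset.univ.erase (⟦1⟧ : S22.Quo N)).card := by
    have := Finset.mem_range.mp hl; omega
  refine ((((hε l).neg_one_pow_mul hΓ l).mul hΓ
    ((isConj_hForm σ N (NeZero.ne N)).pow hΓ _))).cast ?_
  push_cast [Nat.cast_sub hl']
  ring

theorem exists_isConj_mul_denomQ (f : CuspForm (CongruenceSubgroup.Gamma0 N) k) :
    ∃ P' : ℍ → ℂ, IsConj σ (CongruenceSubgroup.Gamma0 N : Subgroup (GL (Fin 2) ℝ))
      (k + 12 * (Finset.univ.erase (⟦1⟧ : S22.Quo N)).card) (⇑f * denomQ N) P' := by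
  have hΓ := CongruenceSubgroup.one_mem_strictPeriods_Gamma0 N
  choose ε hε using exists_isConj_esy_erase (N := N) σ
  choose T' hT' using fun m : ℕ => exists_isConj_levelOne σ
    (ModularForm.trace 𝒮ℒ (S22.mulPow f (S22.hForm N (NeZero.ne N)) m))
  have hid := S22.main_identity f (S22.hForm N (NeZero.ne N))
  have hreg := sum_powerset_regroup (conjFam (S22.hForm N (NeZero.ne N)))
    (Finset.univ.erase (⟦1⟧ : S22.Quo N))
    (fun m => ⇑(ModularForm.trace 𝒮ℒ (S22.mulPow f (S22.hForm N (NeZero.ne N)) m)))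
  have : ⇑f * denomQ N = ∑ l ∈ Finset.range ((Finset.univ.erase (⟦1⟧ : S22.Quo N)).card + 1),
      (-1) ^ l * esy (conjFam (S22.hForm N (NeZero.ne N))) (Finset.univ.erase (⟦1⟧ : S22.Quo N)) l *
        ⇑(ModularForm.trace 𝒮ℒ (S22.mulPow f (S22.hForm N (NeZero.ne N))
          ((Finset.univ.erase (⟦1⟧ : S22.Quo N)).card - l))) := by
    rw [← hreg]
    exact hid
  rw [this]
  refine ⟨_, IsConj.sum hΓ _ (F' := fun l => (-1) ^ l * ε l *
    T' ((Finset.univ.erase (⟦1⟧ : S22.Quo N)).card - l)) ?_⟩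
  intro l hl
  have hl' : l ≤ (Finset.univ.erase (⟦1⟧ : S22.Quo N)).card := by
    have := Finset.mem_range.mp hl; omega
  refine ((((hε l).neg_one_pow_mul hΓ l).mul hΓ ((hT' _).mono (Gamma0_le_SL N)))).cast ?_
  push_cast [Nat.cast_sub hl']
  ring

end main

theorem monic_relation {R ι : Type*} [CommRing R] [Fintype ι] [DecidableEq ι] (y : ι → R) (q₀ : ι) :
    (y q₀) ^ (Fintype.card ι) + ∑ l ∈ Finset.range (Fintype.card ι),
      ((-1) ^ (Fintype.card ι - l) * esy y Finset.univ (Fintype.card ι - l)) * (y q₀) ^ l = 0 := by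
  have h0 : ∏ c ∈ Finset.univ, (y q₀ - y c) = 0 :=
    Finset.prod_eq_zero (Finset.mem_univ q₀) (sub_self _)
  rw [prod_sub_eq_sum_esy, Finset.card_univ, Finset.sum_range_succ'] at h0
  simp only [pow_zero, esy_zero, one_mul, Nat.sub_zero] at h0
  rw [add_comm, ← h0]
  congr 1
  rw [← Finset.sum_range_reflect]
  refine Finset.sum_congr rfl fun j hj => ?_
  have hj' := Finset.mem_range.mp hj
  have e1 : Fintype.card ι - (Fintype.card ι - 1 - j) = j + 1 := by omega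
  have e2 : Fintype.card ι - 1 - j = Fintype.card ι - (j + 1) := by omega
  rw [e1, e2]

theorem exists_cusp_conj (σ : ℂ →+* ℂ) {w : ℤ} (A : ModularForm 𝒮ℒ w)
    (hA : (qExpansion 1 A).coeff 0 = 0) : ∃ D : CuspForm 𝒮ℒ w, IsConj σ 𝒮ℒ w A D := by
  obtain ⟨F', A', B, hA', rfl, hAB⟩ := exists_isConj_levelOne σ A
  have hB : (qExpansion 1 B).coeff 0 = 0 := by
    rw [hAB, PowerSeries.coeff_map, hA', hA, map_zero]
  exact ⟨toCuspForm B hB, A', B, hA', rfl, hAB⟩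

theorem isMono_ne_zero {N : ℕ} {p : PowerSeries ℂ} (hp : S22.IsMono N p) : p ≠ 0 := by
  obtain ⟨C, e, U, hC, rfl⟩ := hp
  refine mul_ne_zero ?_ ?_
  · intro h
    apply hC
    have := congrArg (PowerSeries.coeff 0) h
    simpa using this
  · intro h
    have hinj : Function.Injective (S22.phi N) :=
      PowerSeries.map_injective _ (FaithfulSMul.algebraMap_injective (S22.cycRing N) ℂ)
    have h2 : (PowerSeries.X ^ e * (U : PowerSeries (S22.cycRing N))) = 0 :=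
      hinj (by rw [h, map_zero])
    exact mul_ne_zero (pow_ne_zero _ PowerSeries.X_ne_zero) U.ne_zero h2

theorem denomQ_ne_zero (N : ℕ) [NeZero N] [Fintype (S22.Quo N)] [DecidableEq (S22.Quo N)] :
    denomQ N ≠ 0 := by
  obtain ⟨P, hP1, hP2, hP3⟩ := S22.discriminant_qExpansion_int
  have hP : S22.DeltaInt P := ⟨hP1, hP2, hP3⟩
  intro h0
  unfold denomQ at h0
  rw [UpperHalfPlane.prod_eq_zero_iff] at h0
  · obtain ⟨c, hc, hc0⟩ := h0
    have h1 := (S22.quotient_data hP c).2.2 (Finset.ne_of_mem_erase hc)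
    apply isMono_ne_zero h1
    have h2 : conjFam (S22.hForm N (NeZero.ne N)) c = ⇑(S22.hForm N (NeZero.ne N)) :=
      (sub_eq_zero.mp hc0).symm
    unfold conjFam at h2
    rw [h2, sub_self]
  · intro c _
    exact (ModularFormClass.holo _).sub (conjFam_mdiff _ c)

theorem exists_cusp_conj_neg_one_pow (σ : ℂ →+* ℂ) {w : ℤ} (A : ModularForm 𝒮ℒ w)
    (hA : (qExpansion 1 A).coeff 0 = 0) (j : ℕ) :
    ∃ D : CuspForm 𝒮ℒ w, IsConj σ 𝒮ℒ w ((-1) ^ j * ⇑A) D := by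
  obtain ⟨D, hD⟩ := exists_cusp_conj σ A hA
  rcases neg_one_pow_eq_or (ℍ → ℂ) j with h1 | h1
  · rw [h1, one_mul]; exact ⟨D, hD⟩
  · rw [h1, neg_one_mul]; exact ⟨-D, hD.neg one_mem_strictPeriods_SL⟩

theorem exists_conj_cuspForm (σ : ℂ →+* ℂ) {N : ℕ} [NeZero N] {k : ℤ}
    (f : CuspForm (CongruenceSubgroup.Gamma0 N) k) :
    ∃ g : CuspForm (CongruenceSubgroup.Gamma0 N) k,
      qExpansion 1 g = PowerSeries.map σ (qExpansion 1 f) := by
  classical
  let _ : Fintype (S22.Quo N) := Fintype.ofFinite _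
  have hΓ := CongruenceSubgroup.one_mem_strictPeriods_Gamma0 N
  obtain ⟨Q', hQ'⟩ := exists_isConj_denomQ (N := N) σ
  obtain ⟨P', hP'⟩ := exists_isConj_mul_denomQ σ f
  obtain ⟨n, hn⟩ : ∃ n, n = Fintype.card (S22.Quo N) := ⟨_, rfl⟩
  obtain ⟨K, hK⟩ : ∃ K : ℤ, K = 12 * (Finset.univ.erase (⟦1⟧ : S22.Quo N)).card := ⟨_, rfl⟩
  rw [← hK] at hQ' hP'
  obtain ⟨Q, hQ⟩ : ∃ Q, Q = denomQ N := ⟨_, rfl⟩
  have hQ0 : Q ≠ 0 := hQ ▸ denomQ_ne_zero N
  rw [← hQ] at hQ' hP'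
  obtain ⟨d, hd⟩ : ∃ d : ℕ → ℍ → ℂ,
      d = fun l => (-1) ^ (n - l) * esy (conjFam (N := N) f) Finset.univ (n - l) := ⟨_, rfl⟩
  have hdc : ∀ l : ℕ, ∃ D : CuspForm 𝒮ℒ (k * ((n : ℤ) - l)), l < n →
      IsConj σ 𝒮ℒ (k * ((n : ℤ) - l)) (d l) D := by
    intro l
    by_cases hl : l < n
    · obtain ⟨m, hm⟩ : ∃ m, n - l = m + 1 := ⟨n - l - 1, by omega⟩
      have hw : k * ((m + 1 : ℕ) : ℤ) = k * ((n : ℤ) - l) := by
        rw [← hm, Nat.cast_sub hl.le]
      obtain ⟨D, hD⟩ := exists_cusp_conj_neg_one_pow σ (esymmForm (N := N) f (m + 1))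
        (esymmForm_coeff_zero f m) (m + 1)
      refine ⟨CuspForm.mcast hw D, fun _ => ?_⟩
      rw [hd]
      simp only [hm]
      exact hD.cast hw
    · exact ⟨0, fun h => absurd h hl⟩
  choose D hD using hdc
  -- the relation
  have hrel0 := monic_relation (conjFam (N := N) f) ⟦1⟧
  rw [conjFam_one, ← hn] at hrel0
  have hrel : (⇑f * Q) ^ n + ∑ l ∈ Finset.range n, d l * Q ^ (n - l) * (⇑f * Q) ^ l = 0 := by
    have : (⇑f * Q) ^ n + ∑ l ∈ Finset.range n, d l * Q ^ (n - l) * (⇑f * Q) ^ l =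
        Q ^ n * ((⇑f) ^ n + ∑ l ∈ Finset.range n,
          ((-1) ^ (n - l) * esy (conjFam (N := N) f) Finset.univ (n - l)) * (⇑f) ^ l) := by
      rw [mul_add, Finset.mul_sum, mul_pow, mul_comm (Q ^ n)]
      congr 1
      refine Finset.sum_congr rfl fun l hl => ?_
      have hl' := Finset.mem_range.mp hl
      have : Q ^ n = Q ^ (n - l) * Q ^ l := by rw [← pow_add]; congr 1; omega
      rw [this, hd, mul_pow]
      ring
    rw [this, hrel0, mul_zero]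
  have hconj : IsConj σ (CongruenceSubgroup.Gamma0 N : Subgroup (GL (Fin 2) ℝ)) (n * (k + K))
      ((⇑f * Q) ^ n + ∑ l ∈ Finset.range n, d l * Q ^ (n - l) * (⇑f * Q) ^ l)
      (P' ^ n + ∑ l ∈ Finset.range n, ⇑(D l) * Q' ^ (n - l) * P' ^ l) := by
    refine (hP'.pow hΓ n).add hΓ (IsConj.sum hΓ _ fun l hl => ?_)
    have hl' := Finset.mem_range.mp hl
    refine ((((hD l hl').mono (Gamma0_le_SL N)).mul hΓ (hQ'.pow hΓ (n - l))).mul hΓ
      (hP'.pow hΓ l)).cast ?_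
    push_cast [Nat.cast_sub hl'.le]
    ring
  rw [hrel] at hconj
  have hrel' := hconj.eq_zero hΓ
  obtain ⟨PB, hPB⟩ := hP'.exists_right
  obtain ⟨QB, hQB⟩ := hQ'.exists_right
  obtain ⟨QA, hQA⟩ := hQ'.exists_left
  have hQ'0 : Q' ≠ 0 := hQ'.ne_zero hΓ hQ0
  obtain ⟨g, hg⟩ := exists_cuspForm_of_monic PB QB (by rw [hQB]; exact hQ'0) (fun l => ⇑(D l))
    (fun l => ⟨D l, rfl⟩) (by rw [hPB, hQB]; exact hrel')
  refine ⟨g, ?_⟩
  have h1 : qExpansion 1 g * qExpansion 1 Q' = qExpansion 1 P' := by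
    rw [← hQB, ← hPB, ← hg]
    exact (ModularForm.qExpansion_mul_coe one_pos hΓ g QB).symm
  have h2 : qExpansion 1 (⇑f * Q) = qExpansion 1 f * qExpansion 1 Q := by
    rw [← hQA]
    exact ModularForm.qExpansion_mul_coe one_pos hΓ f QA
  rw [hP'.qExpansion_eq, h2, map_mul, ← hQ'.qExpansion_eq] at h1
  have h3 : qExpansion 1 Q' ≠ 0 := by
    rw [← hQB, Ne, ModularForm.qExpansion_eq_zero_iff one_pos hΓ]
    intro h
    apply hQ'0
    rw [← hQB, h]
    rfl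
  exact mul_right_cancel₀ h3 h1

end Fermat.Agent.S23
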